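import Mathlib
import Fermat.Prelude.Def_ModularCurve_X0ModL
import Fermat.Agent.H27.Igusa.Track

/-!
# P-IGUSA, IG-D2c: order calculus for formal Laurent series

`OrdGE a f` : all coefficients of `f` below `a` vanish.  Basic calculus (products, `qExpand`,
`twist`, leading coefficients), then the facts about `PosOrd`, `unitInf` and `j(ξ t^e)` needed by
IG-D2geom.
-/

set_option autoImplicit false

noncomputable section

open HahnSeries ModularCurve

namespace Fermat.Agent.H9

open Fermat.Agent.H27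

variable {k : Type*} [CommRing k]

/-- all coefficients of `f` at exponents `< a` vanish -/
def OrdGE (a : ℤ) (f : LaurentSeries k) : Prop := ∀ n : ℤ, n < a → f.coeff n = 0

theorem posOrd_iff_ordGE {f : LaurentSeries k} : PosOrd f ↔ OrdGE 1 f := by
  constructor
  · intro h n hn
    exact h n (by omega)
  · intro h n hn
    exact h n (by omega)

theorem OrdGE.mono {a b : ℤ} {f : LaurentSeries k} (h : OrdGE a f) (hab : b ≤ a) : OrdGE b f :=
  fun n hn => h n (lt_of_lt_of_le hn hab)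

theorem ordGE_mul {a b : ℤ} {f g : LaurentSeries k} (hf : OrdGE a f) (hg : OrdGE b g) :
    OrdGE (a + b) (f * g) := by
  intro n hn
  rw [HahnSeries.coeff_mul]
  refine Finset.sum_eq_zero fun ij hij => ?_
  rw [Finset.mem_antidiagonal] at hij
  obtain ⟨-, -, hsum⟩ := hij
  by_cases h1 : ij.1 < a
  · rw [hf _ h1, zero_mul]
  · have h2 : ij.2 < b := by omega
    rw [hg _ h2, mul_zero]

theorem coeff_mul_of_ordGE {a b : ℤ} {f g : LaurentSeries k} (hf : OrdGE a f) (hg : OrdGE b g) :
    (f * g).coeff (a + b) = f.coeff a * g.coeff b := by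
  rw [HahnSeries.coeff_mul]
  by_cases hfa : f.coeff a = 0
  · rw [hfa, zero_mul]
    refine Finset.sum_eq_zero fun ij hij => ?_
    rw [Finset.mem_antidiagonal] at hij
    obtain ⟨-, -, hsum⟩ := hij
    rcases lt_trichotomy ij.1 a with h1 | h1 | h1
    · rw [hf _ h1, zero_mul]
    · rw [h1, hfa, zero_mul]
    · have h2 : ij.2 < b := by omega
      rw [hg _ h2, mul_zero]
  by_cases hgb : g.coeff b = 0
  · rw [hgb, mul_zero]
    refine Finset.sum_eq_zero fun ij hij => ?_
    rw [Finset.mem_antidiagonal] at hij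
    obtain ⟨-, -, hsum⟩ := hij
    rcases lt_trichotomy ij.1 a with h1 | h1 | h1
    · rw [hf _ h1, zero_mul]
    · have h2 : ij.2 = b := by omega
      rw [h2, hgb, mul_zero]
    · have h2 : ij.2 < b := by omega
      rw [hg _ h2, mul_zero]
  rw [Finset.sum_eq_single (a, b)]
  · intro ij hij hne
    rw [Finset.mem_antidiagonal] at hij
    obtain ⟨-, -, hsum⟩ := hij
    rcases lt_trichotomy ij.1 a with h1 | h1 | h1
    · rw [hf _ h1, zero_mul]
    · exfalso
      apply hne
      have h2 : ij.2 = b := by omega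
      exact Prod.ext h1 h2
    · have h2 : ij.2 < b := by omega
      rw [hg _ h2, mul_zero]
  · intro hnot
    exfalso
    apply hnot
    rw [Finset.mem_antidiagonal]
    exact ⟨hfa, hgb, rfl⟩

theorem ordGE_qExpand (e : ℕ) [NeZero e] {a : ℤ} {f : LaurentSeries k} (hf : OrdGE a f) :
    OrdGE ((e : ℤ) * a) (qExpand k e f) := by
  intro n hn
  rw [qExpand_coeff_ite]
  split_ifs with h
  · obtain ⟨m, rfl⟩ := h
    have he : (0 : ℤ) < e := by exact_mod_cast Nat.pos_of_ne_zero (NeZero.ne e)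
    rw [Int.mul_ediv_cancel_left _ he.ne']
    exact hf _ (lt_of_mul_lt_mul_left hn he.le)
  · rfl

theorem ordGE_single (a : ℤ) (r : k) : OrdGE a (HahnSeries.single a r : LaurentSeries k) := by
  intro n hn
  rw [HahnSeries.coeff_single_of_ne hn.ne]

theorem ordGE_ofPowerSeries (u : PowerSeries k) : OrdGE 0 (HahnSeries.ofPowerSeries ℤ k u) :=
  fun _ hn => ofPowerSeries_coeff_of_neg u hn

theorem coeff_zero_ofPowerSeries (u : PowerSeries k) :
    (HahnSeries.ofPowerSeries ℤ k u).coeff 0 = PowerSeries.constantCoeff u := by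
  rw [show (0 : ℤ) = ((0 : ℕ) : ℤ) from rfl, HahnSeries.ofPowerSeries_apply_coeff,
    PowerSeries.coeff_zero_eq_constantCoeff]

theorem ordGE_natCast (p : ℕ) : OrdGE 0 ((p : LaurentSeries k)) := by
  intro n hn
  have h : ((p : LaurentSeries k)) = HahnSeries.C (p : k) := by
    rw [map_natCast]
  rw [h, HahnSeries.C_apply, HahnSeries.coeff_single_of_ne hn.ne]

theorem coeff_zero_natCast (p : ℕ) : ((p : LaurentSeries k)).coeff 0 = (p : k) := by
  have h : ((p : LaurentSeries k)) = HahnSeries.C (p : k) := by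
    rw [map_natCast]
  rw [h, HahnSeries.C_apply, HahnSeries.coeff_single_same]

theorem ordGE_one : OrdGE 0 (1 : LaurentSeries k) := by
  intro n hn
  rw [HahnSeries.coeff_one, if_neg hn.ne]

theorem ordGE_pow {f : LaurentSeries k} (hf : OrdGE 0 f) (n : ℕ) : OrdGE 0 (f ^ n) := by
  induction n with
  | zero => rw [pow_zero]; exact ordGE_one
  | succ n ih =>
    rw [pow_succ]
    have := ordGE_mul ih hf
    rwa [add_zero] at this

theorem coeff_zero_pow {f : LaurentSeries k} (hf : OrdGE 0 f) (n : ℕ) :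
    (f ^ n).coeff 0 = f.coeff 0 ^ n := by
  induction n with
  | zero => rw [pow_zero, pow_zero, HahnSeries.coeff_one, if_pos rfl]
  | succ n ih =>
    rw [pow_succ, pow_succ, ← ih]
    have := coeff_mul_of_ordGE (ordGE_pow hf n) hf
    rwa [add_zero] at this

/-! ### the discriminant -/

theorem ordGE_deltaS : OrdGE 1 (deltaS k) := by
  have := ordGE_mul (ordGE_single (1 : ℤ) (1 : k))
    (ordGE_ofPowerSeries (dedekindEtaUnit.map (Int.castRingHom k)))
  rwa [add_zero] at this

theorem coeff_one_deltaS : (deltaS k).coeff 1 = 1 := by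
  have := coeff_mul_of_ordGE (ordGE_single (1 : ℤ) (1 : k))
    (ordGE_ofPowerSeries (dedekindEtaUnit.map (Int.castRingHom k)))
  rw [add_zero] at this
  rw [deltaS, this, HahnSeries.coeff_single_same, one_mul, coeff_zero_ofPowerSeries,
    ← PowerSeries.coeff_zero_eq_constantCoeff, PowerSeries.coeff_map,
    PowerSeries.coeff_zero_eq_constantCoeff, constantCoeff_dedekindEtaUnit]
  simp

theorem ordGE_deltaInvS : OrdGE (-1) (deltaInvS k) := by
  have := ordGE_mul (ordGE_single (-1 : ℤ) (1 : k))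
    (ordGE_ofPowerSeries (dedekindEtaUnitInv.map (Int.castRingHom k)))
  rwa [add_zero] at this

theorem coeff_neg_one_deltaInvS : (deltaInvS k).coeff (-1) = 1 := by
  have := coeff_mul_of_ordGE (ordGE_single (-1 : ℤ) (1 : k))
    (ordGE_ofPowerSeries (dedekindEtaUnitInv.map (Int.castRingHom k)))
  rw [add_zero] at this
  rw [deltaInvS, this, HahnSeries.coeff_single_same, one_mul, coeff_zero_ofPowerSeries,
    ← PowerSeries.coeff_zero_eq_constantCoeff, PowerSeries.coeff_map,
    PowerSeries.coeff_zero_eq_constantCoeff, constantCoeff_dedekindEtaUnitInv]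
  simp

/-! ### `PosOrd` -/

theorem posOrd_mul {f g : LaurentSeries k} (hf : PosOrd f) (hg : PosOrd g) : PosOrd (f * g) := by
  rw [posOrd_iff_ordGE] at hf hg ⊢
  exact (ordGE_mul hf hg).mono (by norm_num)

theorem posOrd_qExpand (e : ℕ) [NeZero e] {f : LaurentSeries k} (hf : PosOrd f) :
    PosOrd (qExpand k e f) := by
  rw [posOrd_iff_ordGE] at hf ⊢
  refine (ordGE_qExpand e hf).mono ?_
  have he : (1 : ℤ) ≤ e := by exact_mod_cast Nat.pos_of_ne_zero (NeZero.ne e)
  omega

theorem posOrd_of_qExpand (e : ℕ) [NeZero e] {f : LaurentSeries k}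
    (hf : PosOrd (qExpand k e f)) : PosOrd f := by
  intro n hn
  rw [← qExpand_coeff_mul e f n]
  refine hf _ ?_
  have he : (0 : ℤ) ≤ e := by exact_mod_cast Nat.zero_le e
  exact mul_nonpos_of_nonneg_of_nonpos he hn

theorem posOrd_twist (ξ : kˣ) {f : LaurentSeries k} (hf : PosOrd f) : PosOrd (twist ξ f) := by
  intro n hn
  rw [twist_coeff, hf n hn, mul_zero]

/-! ### the unit at infinity -/

theorem ordGE_unitInf (p : ℕ) [NeZero p] :
    OrdGE ((p : ℤ) * p - p) (unitInf k p) := by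
  have h1 : OrdGE 0 ((p : LaurentSeries k) ^ 12) := ordGE_pow (ordGE_natCast p) 12
  have h2 : OrdGE ((p : ℤ) * ((p : ℤ) * 1)) (qExpand k p (qExpand k p (deltaS k))) :=
    ordGE_qExpand p (ordGE_qExpand p ordGE_deltaS)
  have h3 : OrdGE ((p : ℤ) * (-1)) (qExpand k p (deltaInvS k)) :=
    ordGE_qExpand p ordGE_deltaInvS
  have := ordGE_mul (ordGE_mul h1 h2) h3
  rw [unitInf]
  refine this.mono ?_
  ring_nf
  exact le_refl _

theorem coeff_unitInf (p : ℕ) [NeZero p] :
    (unitInf k p).coeff ((p : ℤ) * p - p) = (p : k) ^ 12 := by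
  have h1 : OrdGE 0 ((p : LaurentSeries k) ^ 12) := ordGE_pow (ordGE_natCast p) 12
  have h2 : OrdGE ((p : ℤ) * ((p : ℤ) * 1)) (qExpand k p (qExpand k p (deltaS k))) :=
    ordGE_qExpand p (ordGE_qExpand p ordGE_deltaS)
  have h3 : OrdGE ((p : ℤ) * (-1)) (qExpand k p (deltaInvS k)) :=
    ordGE_qExpand p ordGE_deltaInvS
  have e : (p : ℤ) * p - p = (0 + (p : ℤ) * ((p : ℤ) * 1)) + (p : ℤ) * (-1) := by ring
  rw [unitInf, e, coeff_mul_of_ordGE (ordGE_mul h1 h2) h3, coeff_mul_of_ordGE h1 h2,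
    qExpand_coeff_mul, qExpand_coeff_mul, qExpand_coeff_mul, coeff_one_deltaS,
    coeff_neg_one_deltaInvS, coeff_zero_pow (ordGE_natCast p), coeff_zero_natCast, mul_one,
    mul_one]

theorem posOrd_unitInf (k : Type*) [CommRing k] (p : ℕ) [NeZero p] (hp : 2 ≤ p) :
    PosOrd (unitInf k p) := by
  rw [posOrd_iff_ordGE]
  refine (ordGE_unitInf p).mono ?_
  have h2 : (2 : ℤ) ≤ p := by exact_mod_cast hp
  nlinarith

theorem unitInf_ne_zero (k : Type*) [Field k] (p : ℕ) [NeZero p] (hp : (p : k) ≠ 0) :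
    unitInf k p ≠ 0 := by
  intro h
  have := coeff_unitInf (k := k) p
  rw [h, HahnSeries.coeff_zero] at this
  exact pow_ne_zero 12 hp this.symm

/-! ### leading terms of `j(ξ t^e)` -/

theorem subst_jq_coeff_neg (ξ : kˣ) (e : ℕ) [NeZero e] :
    (subst ξ e (jqModC k)).coeff (-(e : ℤ)) = ((ξ⁻¹ : kˣ) : k) := by
  have h : (-(e : ℤ)) = (e : ℤ) * (-1) := by ring
  rw [h, subst_coeff_mul, coeff_jqModC_neg_one, mul_one, zpow_neg_one]

theorem subst_jq_coeff_of_lt (ξ : kˣ) (e : ℕ) [NeZero e] {n : ℤ} (hn : n < -(e : ℤ)) :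
    (subst ξ e (jqModC k)).coeff n = 0 := by
  by_cases h : (e : ℤ) ∣ n
  · obtain ⟨m, rfl⟩ := h
    have he : (0 : ℤ) < e := by exact_mod_cast Nat.pos_of_ne_zero (NeZero.ne e)
    have hm : m < -1 := by
      have : (e : ℤ) * m < (e : ℤ) * (-1) := by linarith
      exact lt_of_mul_lt_mul_left this he.le
    rw [subst_coeff_mul, coeff_jqModC_of_lt k hm, mul_zero]
  · exact subst_coeff_of_not_dvd ξ e _ h

theorem subst_jq_injective [Nontrivial k] (ξ ξ' : kˣ) (e e' : ℕ) [NeZero e] [NeZero e']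
    (h : subst ξ e (jqModC k) = subst ξ' e' (jqModC k)) : ξ = ξ' ∧ e = e' := by
  have hee : e = e' := by
    rcases lt_trichotomy e e' with h1 | h1 | h1
    · exfalso
      have hc := subst_jq_coeff_neg ξ' e'
      rw [← h, subst_jq_coeff_of_lt ξ e (by exact_mod_cast (neg_lt_neg_iff.mpr
        (show (e : ℤ) < e' by exact_mod_cast h1)))] at hc
      exact (ξ'⁻¹).ne_zero hc.symm
    · exact h1
    · exfalso
      have hc := subst_jq_coeff_neg ξ e
      rw [h, subst_jq_coeff_of_lt ξ' e' (by exact_mod_cast (neg_lt_neg_iff.mpr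
        (show (e' : ℤ) < e by exact_mod_cast h1)))] at hc
      exact (ξ⁻¹).ne_zero hc.symm
  subst hee
  refine ⟨?_, rfl⟩
  have h1 := subst_jq_coeff_neg ξ e
  rw [h, subst_jq_coeff_neg] at h1
  have h2 : ξ'⁻¹ = ξ⁻¹ := Units.ext h1
  exact (inv_inj.mp h2).symm

theorem subst_jq_mem_range_qExpand_iff [Nontrivial k] (ξ : kˣ) (e p : ℕ) [NeZero e] [NeZero p] :
    subst ξ e (jqModC k) ∈ Set.range (qExpand k p) ↔ p ∣ e := by
  constructor
  · rintro ⟨g, hg⟩
    by_contra hpe
    have hc := subst_jq_coeff_neg ξ e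
    rw [← hg, qExpand_coeff_of_not_dvd p g (by
      rw [Int.dvd_neg]
      exact_mod_cast hpe)] at hc
    exact (ξ⁻¹).ne_zero hc.symm
  · rintro ⟨m, rfl⟩
    have hm : m ≠ 0 := by
      rintro rfl
      exact NeZero.ne (p * 0) (mul_zero p)
    letI : NeZero m := ⟨hm⟩
    refine ⟨subst ξ m (jqModC k), ?_⟩
    rw [qExpand_subst]

end Fermat.Agent.H9
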