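import Mathlib
import Fermat.Prelude.Def_ModularCurve_X0ModL
import Fermat.Agent.H27.Igusa.Chain
import Fermat.Agent.H9.Igusa.OrderCalculus

/-!
# P-IGUSA, IG-E3 (unit norm lemma), part 1: tracking of the chain under an embedding

Setting: `L = k((q))`, `Ω` a field, `a ρ : L →+* Ω` with `ρ ∘ qExpand M = a`
(`ρ` = Puiseux embedding `q = t^M`).  For a ring hom `κ : R →+* Ω` defined on a field `R ⊆ L`
which agrees with `a` on `j`, the images of the chain elements `j(q^n)` are `ρ (j(ξ t^e))`.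
-/

set_option autoImplicit false

noncomputable section

open HahnSeries ModularCurve Polynomial

namespace Fermat.Agent.H9

open Fermat.Agent.H27

/-- statement of IG-E1 `Phi_rel` (hypothesis form) -/
def PhiRelStatement (k : Type) [Field k] : Prop :=
  ∀ (q : ℕ) [NeZero q] (ζ : kˣ) (D : HeckeDataOver q k ζ) (n : ℕ), n ≠ 0 →
    (D.Φ.map (evalAt (jLev k n))).eval (jLev k (n * q)) = 0

section General

variable {k : Type} [Field k]

theorem evalAt_eq_evalAtR (x : LaurentSeries k) : evalAt x = evalAtR x := rfl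

/-- compatibility of `P(x, y)` with ring homs, for general rings -/
theorem map_eval_map_evalAtR {A A' : Type*} [CommRing A] [CommRing A'] (φ : A →+* A')
    (P : Polynomial (Polynomial ℤ)) (x y : A) :
    φ ((P.map (evalAtR x)).eval y) = (P.map (evalAtR (φ x))).eval (φ y) := by
  rw [Polynomial.eval_map, Polynomial.eval_map, Polynomial.hom_eval₂, evalAtR_comp]

/-- `z = ρ (j(ξ t^e))` with `e · n = M · c`, `c ∣ n²`. -/
def Tracked {Ω : Type*} [Field Ω] (ρ : LaurentSeries k →+* Ω) (M n : ℕ) (z : Ω) : Prop :=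
  ∃ (ξ : kˣ) (e c : ℕ) (_ : NeZero e),
    z = ρ (subst ξ e (jqModC k)) ∧ e * n = M * c ∧ c ∣ n ^ 2

theorem exists_unit_pow_eq [IsAlgClosed k] (ξ : kˣ) {q : ℕ} (hq : 0 < q) :
    ∃ ξ' : kˣ, ξ' ^ q = ξ := by
  obtain ⟨z, hz⟩ := IsAlgClosed.exists_pow_nat_eq (ξ : k) hq
  have hz0 : z ≠ 0 := by
    rintro rfl
    rw [zero_pow hq.ne'] at hz
    exact ξ.ne_zero hz.symm
  refine ⟨Units.mk0 z hz0, ?_⟩
  ext
  simpa using hz

theorem exists_heckeData [IsAlgClosed k] (hM : HasHeckeData k) {q : ℕ} (hq : q.Prime)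
    (hqk : (q : k) ≠ 0) :
    ∃ (_ : NeZero q) (ζ : kˣ), IsPrimitiveRoot (ζ : k) q ∧ Nonempty (HeckeDataOver q k ζ) := by
  haveI : NeZero q := ⟨hq.ne_zero⟩
  haveI : NeZero (q : k) := ⟨hqk⟩
  obtain ⟨ζ, hζ⟩ := HasEnoughRootsOfUnity.exists_primitiveRoot k q
  have hζ0 : ζ ≠ 0 := hζ.ne_zero hq.ne_zero
  refine ⟨⟨hq.ne_zero⟩, Units.mk0 ζ hζ0, by simpa using hζ, ?_⟩
  exact hM q hq (Units.mk0 ζ hζ0) (by simpa using hζ)

/-- one tracking step in `Tracked` form -/
theorem tracked_step [IsAlgClosed k] (hM : HasHeckeData k)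
    {Ω : Type*} [Field Ω] (ρ : LaurentSeries k →+* Ω) (M n q : ℕ) (hn : n ≠ 0)
    (hq : q.Prime) (hqk : (q : k) ≠ 0) (hnq : n * q ∣ M) (hM0 : M ≠ 0)
    (x y : Ω) (hx : Tracked ρ M n x)
    (hxy : ∀ (_ : NeZero q) (ζ : kˣ) (D : HeckeDataOver q k ζ),
      (D.Φ.map (evalAtR x)).eval y = 0) :
    Tracked ρ M (n * q) y := by
  obtain ⟨ξ, e, c, he, hxe, hec, hc⟩ := hx
  obtain ⟨hq0, ζ, -, ⟨D⟩⟩ := exists_heckeData hM hq hqk
  -- `q ∣ e`
  obtain ⟨m', hm'⟩ := hnq
  have hqe : q ∣ e := by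
    have h1 : e * n = n * (q * (m' * c)) := by rw [hec, hm']; ring
    have h2 : e = q * (m' * c) := by
      have h3 : n * e = n * (q * (m' * c)) := by rw [← h1, mul_comm]
      exact Nat.eq_of_mul_eq_mul_left (Nat.pos_of_ne_zero hn) h3
    exact ⟨m' * c, h2⟩
  obtain ⟨e', he'⟩ := hqe
  have he'0 : e' ≠ 0 := by
    rintro rfl
    exact NeZero.ne e (by rw [he', mul_zero])
  haveI : NeZero e' := ⟨he'0⟩
  obtain ⟨ξ', hξ'⟩ := exists_unit_pow_eq ξ hq.pos
  have hx' : x = ρ (subst (ξ' ^ q) (e' * q) (jqModC k)) := by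
    rw [hxe]
    congr 1
    exact subst_congr hξ'.symm (by rw [he', mul_comm]) _
  rcases track_step q ζ D ρ ξ' e' x y hx' (hxy hq0 ζ D) with h1 | ⟨b, -, h2⟩
  · refine ⟨(ξ' ^ q) ^ q, e' * q * q, c * q ^ 2, inferInstance, h1, ?_, ?_⟩
    · have : e' * q * q * (n * q) = (e * n) * q ^ 2 := by rw [he']; ring
      rw [this, hec]; ring
    · rw [mul_pow]
      exact mul_dvd_mul hc dvd_rfl
  · refine ⟨ζ ^ b * ξ', e', c, inferInstance, h2, ?_, ?_⟩
    · have : e' * (n * q) = e * n := by rw [he']; ring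
      rw [this, hec]
    · rw [mul_pow]
      exact Dvd.dvd.mul_right hc _

end General

section Chain

variable {k : Type} [Field k]

theorem prod_ne_zero_of_primes (ps : List ℕ) (hps : ∀ q ∈ ps, q.Prime ∧ (q : k) ≠ 0) :
    ps.prod ≠ 0 := by
  rw [Ne, List.prod_eq_zero_iff]
  intro h
  exact (hps 0 h).1.ne_zero rfl

theorem prefix_prod_dvd {qs ps : List ℕ} (h : qs <+: ps) : qs.prod ∣ ps.prod := by
  obtain ⟨rs, rfl⟩ := h
  rw [List.prod_append]
  exact dvd_mul_right _ _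

/-- **Tracking** along the chain. -/
theorem tracked_of_prefix [IsAlgClosed k] (hM : HasHeckeData k) (hΦ : PhiRelStatement k)
    (ps : List ℕ) (hps : ∀ q ∈ ps, q.Prime ∧ (q : k) ≠ 0) (M : ℕ) [NeZero M]
    (hNM : ps.prod ∣ M)
    {Ω : Type*} [Field Ω] (ρ a : LaurentSeries k →+* Ω) (hρ : ρ.comp (qExpand k M) = a)
    {R : Type*} [Field R] (ι : R →+* LaurentSeries k) (κ : R →+* Ω)
    (hκj : ∀ x : R, ι x = jqModC k → κ x = a (jqModC k))
    (hsurj : ∀ qs : List ℕ, qs <+: ps → ∃ x : R, ι x = jLev k qs.prod) :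
    ∀ qs : List ℕ, qs <+: ps → ∀ x : R, ι x = jLev k qs.prod → Tracked ρ M qs.prod (κ x) := by
  intro qs
  induction qs using List.reverseRecOn with
  | nil =>
    intro _ x hx
    rw [List.prod_nil, jLev_one] at hx
    refine ⟨1, M, 1, inferInstance, ?_, by simp, by simp⟩
    rw [hκj x hx, ← hρ, RingHom.comp_apply, subst_one_eq_qExpand]
  | append_singleton rs q ih =>
    intro hpre x hx
    have hrs : rs <+: ps := (List.prefix_append rs [q]).trans hpre
    have hqmem : q ∈ ps := hpre.subset (by simp)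
    obtain ⟨hq, hqk⟩ := hps q hqmem
    obtain ⟨xn, hxn⟩ := hsurj rs hrs
    have hn : rs.prod ≠ 0 :=
      prod_ne_zero_of_primes (k := k) rs fun r hr => hps r (hrs.subset hr)
    have hprod : (rs ++ [q]).prod = rs.prod * q := by simp
    rw [hprod] at hx ⊢
    refine tracked_step hM ρ M rs.prod q hn hq hqk ?_ (NeZero.ne M) (κ xn) (κ x)
      (ih hrs xn hxn) ?_
    · rw [← hprod]
      exact (prefix_prod_dvd hpre).trans hNM
    · intro hq0 ζ D
      have h1 := hΦ q ζ D rs.prod hn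
      rw [evalAt_eq_evalAtR, ← hxn, ← hx, ← map_eval_map_evalAtR] at h1
      have h2 : (D.Φ.map (evalAtR xn)).eval x = 0 := ι.injective (by rw [h1, map_zero])
      rw [← map_eval_map_evalAtR, h2, map_zero]

end Chain

end Fermat.Agent.H9
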