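import Mathlib
import Fermat.Prelude.Def_ModularCurve_X0ModL
import Fermat.Agent.H27.Igusa.Chain
import Fermat.Agent.H9.Igusa.OrderCalculus
import Fermat.Agent.H9.Igusa.UnitNormTrack

/-!
# P-IGUSA, IG-E3 (unit norm lemma), part 2: the conjugates of the unit have positive order

`B = k(j)`, `chainExt k ps = B(chain)`; for every `B`-embedding `κ` of `chainExt k ps` into `Ω`
the image of the unit `h = p^12 Δ(q^{Np})/Δ(q^N)` is `ρ z` with `z` of positive order, `z ≠ 0`
(assuming `j(q^{Np})` lies in the chain field).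
-/

set_option autoImplicit false

noncomputable section

open HahnSeries ModularCurve Polynomial

namespace Fermat.Agent.H9

open Fermat.Agent.H27

/-- statement of IG-E1 `L_rel` (hypothesis form) -/
def LRelStatement (k : Type) [Field k] : Prop :=
  ∀ (p : ℕ) [NeZero p] (ζ : kˣ) (D : HeckeDataOver p k ζ) (n : ℕ), n ≠ 0 →
    (D.L.map (evalAt (jLev k n))).eval (jLev k (n * p)) =
      unitLev k n p * ((D.Φ.map (evalAt (jLev k n))).derivative).eval (jLev k (n * p))

/-- statement of IG-E1 `Phi_deriv_ne_zero` (hypothesis form) -/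
def PhiDerivStatement (k : Type) [Field k] : Prop :=
  ∀ (p : ℕ) [NeZero p] (ζ : kˣ) (D : HeckeDataOver p k ζ), p.Prime → ∀ n : ℕ, n ≠ 0 →
    ((D.Φ.map (evalAt (jLev k n))).derivative).eval (jLev k (n * p)) ≠ 0

section Setup

variable (k : Type) [Field k]

/-- the base field `k(j)` -/
abbrev baseField : IntermediateField k (LaurentSeries k) :=
  IntermediateField.adjoin k {jqModC k}

/-- the chain field as an extension of `k(j)` -/
abbrev chainExt (ps : List ℕ) : IntermediateField (baseField k) (LaurentSeries k) :=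
  IntermediateField.adjoin (baseField k) (chainSet k ps)

theorem chainField_le_chainExt (ps : List ℕ) :
    chainField k ps ≤ (chainExt k ps).restrictScalars k := by
  rw [chainField, IntermediateField.adjoin_le_iff]
  intro x hx
  exact IntermediateField.subset_adjoin (baseField k) (chainSet k ps) hx

theorem jLev_mem_chainExt {ps qs : List ℕ} (h : qs <+: ps) :
    jLev k qs.prod ∈ chainExt k ps :=
  IntermediateField.subset_adjoin (baseField k) (chainSet k ps) ⟨qs, h, rfl⟩

end Setup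

section Kappa

variable {k : Type} [Field k]

theorem algHom_base_apply {Ω : Type*} [Field Ω] [Algebra (LaurentSeries k) Ω]
    (ps : List ℕ) (κ : chainExt k ps →ₐ[baseField k] Ω) (x : LaurentSeries k)
    (hx : x ∈ baseField k) (hx' : x ∈ chainExt k ps) :
    κ ⟨x, hx'⟩ = algebraMap (LaurentSeries k) Ω x := by
  have h1 : (⟨x, hx'⟩ : chainExt k ps) = algebraMap (baseField k) (chainExt k ps) ⟨x, hx⟩ := by
    apply Subtype.ext
    rfl
  rw [h1, κ.commutes, IsScalarTower.algebraMap_apply (baseField k) (LaurentSeries k) Ω]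
  rfl

theorem ordGE_intCast_pow (n : ℕ) : OrdGE 0 (((-1 : ℤ) ^ n : ℤ) : LaurentSeries k) := by
  intro m hm
  have h : (((-1 : ℤ) ^ n : ℤ) : LaurentSeries k) = HahnSeries.C ((((-1 : ℤ) ^ n : ℤ)) : k) := by
    rw [map_intCast]
  rw [h, HahnSeries.C_apply, HahnSeries.coeff_single_of_ne hm.ne]

variable [IsAlgClosed k]

/-- every element of the chain field is sent into `ρ (k((t^p)))` -/
theorem kappa_mem_fieldRange (hM : HasHeckeData k) (hΦ : PhiRelStatement k)
    (ps : List ℕ) (hps : ∀ q ∈ ps, q.Prime ∧ (q : k) ≠ 0) (p : ℕ) [NeZero p]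
    [NeZero (ps.prod * p)]
    {Ω : Type*} [Field Ω] [Algebra (LaurentSeries k) Ω]
    (ρ : LaurentSeries k →+* Ω)
    (hρ : ρ.comp (qExpand k (ps.prod * p)) = algebraMap (LaurentSeries k) Ω)
    (κ : chainExt k ps →ₐ[baseField k] Ω) :
    ∀ (x : LaurentSeries k) (hx : x ∈ chainExt k ps),
      κ ⟨x, hx⟩ ∈ (ρ.comp (qExpand k p)).fieldRange := by
  have hN : ps.prod ≠ 0 := prod_ne_zero_of_primes (k := k) ps hps
  haveI : NeZero ps.prod := ⟨hN⟩
  have hκj : ∀ x : chainExt k ps,
      (algebraMap (chainExt k ps) (LaurentSeries k)) x = jqModC k →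
        (κ : chainExt k ps →+* Ω) x = algebraMap (LaurentSeries k) Ω (jqModC k) := by
    intro x hx
    have hmem : jqModC k ∈ baseField k :=
      IntermediateField.subset_adjoin k _ (Set.mem_singleton _)
    have hx2 : x = ⟨jqModC k, hx ▸ x.2⟩ := Subtype.ext hx
    rw [hx2]
    exact algHom_base_apply ps κ (jqModC k) hmem _
  have htr := tracked_of_prefix hM hΦ ps hps (ps.prod * p) (dvd_mul_right _ _) ρ
    (algebraMap (LaurentSeries k) Ω) hρ (algebraMap (chainExt k ps) (LaurentSeries k))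
    (κ : chainExt k ps →+* Ω) hκj
    (fun qs hqs => ⟨⟨jLev k qs.prod, jLev_mem_chainExt k hqs⟩, rfl⟩)
  intro x hx
  induction hx using IntermediateField.adjoin_induction with
  | mem x hx =>
    obtain ⟨qs, hqs, rfl⟩ := hx
    obtain ⟨ξ, e, c, he, hz, hec, -⟩ := htr qs hqs ⟨jLev k qs.prod, jLev_mem_chainExt k hqs⟩ rfl
    have hz' : κ ⟨jLev k qs.prod, jLev_mem_chainExt k hqs⟩ = ρ (subst ξ e (jqModC k)) := hz
    -- `p ∣ e`
    obtain ⟨m', hm'⟩ := prefix_prod_dvd hqs
    have hn : qs.prod ≠ 0 := fun h0 => hN (by rw [hm', h0, zero_mul])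
    have hpe : e = p * (m' * c) := by
      have h3 : qs.prod * e = qs.prod * (p * (m' * c)) := by
        rw [mul_comm, hec, hm']; ring
      exact Nat.eq_of_mul_eq_mul_left (Nat.pos_of_ne_zero hn) h3
    have hmc : m' * c ≠ 0 := by
      intro h0
      exact NeZero.ne e (by rw [hpe, h0, mul_zero])
    haveI : NeZero (m' * c) := ⟨hmc⟩
    rw [hz']
    refine ⟨subst ξ (m' * c) (jqModC k), ?_⟩
    rw [RingHom.comp_apply, qExpand_subst]
    congr 1
    exact subst_congr rfl hpe.symm _
  | algebraMap b =>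
    have h1 := algHom_base_apply ps κ (b : LaurentSeries k) b.2
      (IntermediateField.algebraMap_mem _ b)
    have h2 : κ ⟨algebraMap (baseField k) (LaurentSeries k) b,
        IntermediateField.algebraMap_mem _ b⟩ = algebraMap (LaurentSeries k) Ω (b : LaurentSeries k) :=
      h1
    rw [h2, ← hρ]
    refine ⟨qExpand k ps.prod (b : LaurentSeries k), ?_⟩
    rw [RingHom.comp_apply, RingHom.comp_apply, qExpand_qExpand]
    congr 1
    exact qExpand_congr (mul_comm _ _) _
  | add x y hx hy ihx ihy =>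
    have : (⟨x + y, IntermediateField.add_mem _ hx hy⟩ : chainExt k ps) = ⟨x, hx⟩ + ⟨y, hy⟩ := rfl
    rw [this, map_add]
    exact add_mem ihx ihy
  | inv x hx ihx =>
    have : (⟨x⁻¹, IntermediateField.inv_mem _ hx⟩ : chainExt k ps) = (⟨x, hx⟩ : chainExt k ps)⁻¹ := rfl
    rw [this, map_inv₀]
    exact inv_mem ihx
  | mul x y hx hy ihx ihy =>
    have : (⟨x * y, IntermediateField.mul_mem _ hx hy⟩ : chainExt k ps) = ⟨x, hx⟩ * ⟨y, hy⟩ := rfl
    rw [this, map_mul]
    exact mul_mem ihx ihy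

/-- **the conjugates of the unit have positive order** -/
theorem kappa_unit (hM : HasHeckeData k) (hΦ : PhiRelStatement k) (hL : LRelStatement k)
    (hd : PhiDerivStatement k)
    (ps : List ℕ) (hps : ∀ q ∈ ps, q.Prime ∧ (q : k) ≠ 0) (p : ℕ) (hp : p.Prime)
    (hpk : (p : k) ≠ 0) (hpn : ¬ p ∣ ps.prod) [NeZero p] [NeZero (ps.prod * p)]
    {Ω : Type*} [Field Ω] [Algebra (LaurentSeries k) Ω]
    (ρ : LaurentSeries k →+* Ω)
    (hρ : ρ.comp (qExpand k (ps.prod * p)) = algebraMap (LaurentSeries k) Ω)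
    (hy : jLev k (ps.prod * p) ∈ chainExt k ps)
    (hh : unitLev k ps.prod p ∈ chainExt k ps)
    (κ : chainExt k ps →ₐ[baseField k] Ω) :
    ∃ z : LaurentSeries k, PosOrd z ∧ z ≠ 0 ∧ κ ⟨unitLev k ps.prod p, hh⟩ = ρ z := by
  have hN : ps.prod ≠ 0 := prod_ne_zero_of_primes (k := k) ps hps
  have hκj : ∀ x : chainExt k ps,
      (algebraMap (chainExt k ps) (LaurentSeries k)) x = jqModC k →
        (κ : chainExt k ps →+* Ω) x = algebraMap (LaurentSeries k) Ω (jqModC k) := by
    intro x hx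
    have hmem : jqModC k ∈ baseField k :=
      IntermediateField.subset_adjoin k _ (Set.mem_singleton _)
    have hx2 : x = ⟨jqModC k, hx ▸ x.2⟩ := Subtype.ext hx
    rw [hx2]
    exact algHom_base_apply ps κ (jqModC k) hmem _
  have htr := tracked_of_prefix hM hΦ ps hps (ps.prod * p) (dvd_mul_right _ _) ρ
    (algebraMap (LaurentSeries k) Ω) hρ (algebraMap (chainExt k ps) (LaurentSeries k))
    (κ : chainExt k ps →+* Ω) hκj
    (fun qs hqs => ⟨⟨jLev k qs.prod, jLev_mem_chainExt k hqs⟩, rfl⟩)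
  -- the top of the chain
  set xN : chainExt k ps := ⟨jLev k ps.prod, jLev_mem_chainExt k (List.prefix_refl ps)⟩ with hxN
  set y : chainExt k ps := ⟨jLev k (ps.prod * p), hy⟩ with hydef
  set h : chainExt k ps := ⟨unitLev k ps.prod p, hh⟩ with hhdef
  obtain ⟨ξ, e, c, he, hz, hec, hc⟩ := htr ps (List.prefix_refl ps) xN rfl
  have hz' : κ xN = ρ (subst ξ e (jqModC k)) := hz
  have hec' : e = c * p := by
    have h3 : ps.prod * e = ps.prod * (c * p) := by rw [mul_comm, hec]; ring
    exact Nat.eq_of_mul_eq_mul_left (Nat.pos_of_ne_zero hN) h3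
  have hc0 : c ≠ 0 := by
    rintro rfl
    exact NeZero.ne e (by rw [hec', zero_mul])
  haveI : NeZero c := ⟨hc0⟩
  have hpc : ¬ p ∣ c := by
    intro hpc
    exact hpn (hp.dvd_of_dvd_pow (hpc.trans hc))
  obtain ⟨ξ', hξ'⟩ := exists_unit_pow_eq ξ hp.pos
  have hx' : κ xN = ρ (subst (ξ' ^ p) (c * p) (jqModC k)) := by
    rw [hz']
    congr 1
    exact subst_congr hξ'.symm hec' _
  obtain ⟨ζ, ⟨D⟩⟩ : ∃ ζ : kˣ, Nonempty (HeckeDataOver p k ζ) := by
    obtain ⟨_, ζ, hζ, hD⟩ := exists_heckeData hM hp hpk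
    exact ⟨ζ, hD⟩
  -- transfer of the relations
  have hΦ1 := hΦ p ζ D ps.prod hN
  have hΦ2 : (D.Φ.map (evalAtR xN)).eval y = 0 := by
    apply (algebraMap (chainExt k ps) (LaurentSeries k)).injective
    rw [map_eval_map_evalAtR, map_zero]
    exact hΦ1
  have hΦ3 : (D.Φ.map (evalAtR (κ xN))).eval (κ y) = 0 := by
    have := map_eval_map_evalAtR (κ : chainExt k ps →+* Ω) D.Φ xN y
    rw [hΦ2, map_zero] at this
    exact this.symm
  have hyT : κ y ∈ (ρ.comp (qExpand k p)).fieldRange :=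
    kappa_mem_fieldRange hM hΦ ps hps p ρ hρ κ _ hy
  have hyval : κ y = ρ (subst ((ξ' ^ p) ^ p) (c * p * p) (jqModC k)) := by
    rcases track_step p ζ D ρ ξ' c (κ xN) (κ y) hx' hΦ3 with h1 | ⟨b, -, h2⟩
    · exact h1
    · exfalso
      obtain ⟨g, hg⟩ := hyT
      rw [h2, RingHom.comp_apply] at hg
      have hg' := ρ.injective hg
      exact hpc ((subst_jq_mem_range_qExpand_iff (ζ ^ b * ξ') c p).mp ⟨g, hg'⟩)
  -- the embedding `σ`
  set σ : LaurentSeries k →+* Ω := ρ.comp (subst ξ' c) with hσ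
  have hσb : σ (baseS k p) = κ xN := by
    rw [hx', hσ, RingHom.comp_apply, baseS, subst_qExpand]
  have hσr : σ (rootInf k p) = κ y := by
    rw [hyval, hσ, RingHom.comp_apply, rootInf, subst_qExpand, subst_qExpand]
  have hLinf := hecke_L_inf D σ
  rw [hσb, hσr, Polynomial.derivative_map] at hLinf
  -- the `L`-relation in `Ω`
  have hL1 := hL p ζ D ps.prod hN
  rw [Polynomial.derivative_map] at hL1
  have hL2 : (D.L.map (evalAtR xN)).eval y =
      h * ((Polynomial.derivative D.Φ).map (evalAtR xN)).eval y := by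
    apply (algebraMap (chainExt k ps) (LaurentSeries k)).injective
    rw [map_mul, map_eval_map_evalAtR, map_eval_map_evalAtR]
    exact hL1
  have hL3 : (D.L.map (evalAtR (κ xN))).eval (κ y) =
      κ h * ((Polynomial.derivative D.Φ).map (evalAtR (κ xN))).eval (κ y) := by
    have := congrArg (κ : chainExt k ps →+* Ω) hL2
    rw [map_mul, map_eval_map_evalAtR, map_eval_map_evalAtR] at this
    exact this
  have hd1 := hd p ζ D hp ps.prod hN
  rw [Polynomial.derivative_map] at hd1
  have hd2 : ((Polynomial.derivative D.Φ).map (evalAtR xN)).eval y ≠ 0 := by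
    intro h0
    apply hd1
    have := map_eval_map_evalAtR (algebraMap (chainExt k ps) (LaurentSeries k))
      (Polynomial.derivative D.Φ) xN y
    rw [h0, map_zero] at this
    exact this.symm
  have hd3 : ((Polynomial.derivative D.Φ).map (evalAtR (κ xN))).eval (κ y) ≠ 0 := by
    have h5 := map_eval_map_evalAtR (κ : chainExt k ps →+* Ω) (Polynomial.derivative D.Φ) xN y
    have h6 : (κ : chainExt k ps →+* Ω)
        (((Polynomial.derivative D.Φ).map (evalAtR xN)).eval y) ≠ 0 :=
      (map_ne_zero (κ : chainExt k ps →+* Ω)).mpr hd2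
    rw [h5] at h6
    exact h6
  have hκh : κ h = σ (unitInf k p) := by
    rw [hL3] at hLinf
    exact mul_right_cancel₀ hd3 hLinf
  refine ⟨subst ξ' c (unitInf k p), ?_, ?_, hκh⟩
  · rw [subst_apply]
    exact posOrd_qExpand c (posOrd_twist ξ' (posOrd_unitInf k p hp.two_le))
  · exact (map_ne_zero (subst ξ' c)).mpr (unitInf_ne_zero k p hpk)

end Kappa

end Fermat.Agent.H9
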