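import Mathlib
import Fermat.Prelude.Def_ModularCurve_X0ModL
import Fermat.Agent.H27.Igusa.Chain
import Fermat.Agent.H9.Igusa.OrderCalculus
import Fermat.Agent.H9.Igusa.UnitNormTrack
import Fermat.Agent.H9.Igusa.UnitNormKappa

/-!
# P-IGUSA, IG-E3: the unit norm lemma (hypothesis-parametric form)

`jLev_not_mem_chainField_of`: `j(q^{Np}) ∉ k(j(q^{N_0}), …, j(q^{N_s}))` for a prime `p ∤ N`,
assuming (as explicit hypotheses) the statements of IG-D2a (Puiseux embedding), IG-D2b
(integral elements of `k(j)` are polynomials in `j`) and IG-E1 (relations between the levels).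
-/

set_option autoImplicit false

noncomputable section

open HahnSeries ModularCurve Polynomial

namespace Fermat.Agent.H9

open Fermat.Agent.H27

/-- statement of IG-E1 `Psi_rel` (hypothesis form) -/
def PsiRelStatement (k : Type) [Field k] : Prop :=
  ∀ (p : ℕ) [NeZero p] (ζ : kˣ) (D : HeckeDataOver p k ζ) (n : ℕ), n ≠ 0 →
    (D.Ψ.map (evalAt (jLev k n))).eval (unitLev k n p) = 0

/-- statement of IG-D2a `exists_rho` (hypothesis form) -/
def RhoStatement (k : Type) [Field k] : Prop :=
  ∀ (M : ℕ) [NeZero M], ∃ ρ : LaurentSeries k →+* AlgebraicClosure (LaurentSeries k),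
    ρ.comp (qExpand k M) = algebraMap (LaurentSeries k) (AlgebraicClosure (LaurentSeries k))

/-- statement of IG-D2b `exists_poly_of_integral` (hypothesis form) -/
def PolyOfIntegralStatement (k : Type) [Field k] : Prop :=
  ∀ x : LaurentSeries k, x ∈ IntermediateField.adjoin k {jqModC k} →
    IsIntegral (Algebra.adjoin k {jqModC k}) x →
      ∃ P : Polynomial k, x = Polynomial.aeval (jqModC k) P

/-- statement of IG-D2b `exists_coeff_aeval_jq_ne_zero` (hypothesis form) -/
def CoeffAevalStatement (k : Type) [Field k] : Prop :=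
  ∀ P : Polynomial k, P ≠ 0 →
    ∃ n : ℤ, n ≤ 0 ∧ (Polynomial.aeval (jqModC k) P).coeff n ≠ 0

/-! ### abstract lemmas -/

section Abstract

/-- transport of integrality of an element along two ring homs out of an intermediate ring -/
theorem isIntegralElem_transport {A₀ R₁ R₂ R₃ : Type*} [CommRing A₀] [CommRing R₁]
    [CommRing R₂] [CommRing R₃] (f : A₀ →+* R₁) (i : R₁ →+* R₂) (φ : R₁ →+* R₃)
    (hi : Function.Injective i) (x : R₁) (hx : (i.comp f).IsIntegralElem (i x)) :
    (φ.comp f).IsIntegralElem (φ x) := by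
  obtain ⟨P, hP, h0⟩ := hx
  refine ⟨P, hP, ?_⟩
  have h1 : Polynomial.eval₂ f x P = 0 := by
    apply hi
    rw [Polynomial.hom_eval₂, h0, map_zero]
  rw [← Polynomial.hom_eval₂, h1, map_zero]

theorem multiset_prod_property {Ω : Type*} [CommMonoid Ω] (Q : Ω → Prop)
    (hQmul : ∀ x y, Q x → Q y → Q (x * y)) (s : Multiset Ω) (hs : s ≠ 0)
    (h : ∀ r ∈ s, Q r) : Q s.prod := by
  induction s using Multiset.induction_on with
  | empty => exact absurd rfl hs
  | cons a t ih =>
    rw [Multiset.prod_cons]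
    by_cases ht : t = 0
    · subst ht
      rw [Multiset.prod_zero, mul_one]
      exact h a (Multiset.mem_cons_self a _)
    · exact hQmul _ _ (h a (Multiset.mem_cons_self a _))
        (ih ht fun r hr => h r (Multiset.mem_cons_of_mem hr))

theorem neg_one_pow_mul_property {Ω : Type*} [CommRing Ω] (Q : Ω → Prop)
    (hQneg : ∀ x, Q x → Q (-x)) (n : ℕ) (w : Ω) (hw : Q w) : Q ((-1) ^ n * w) := by
  induction n with
  | zero => rwa [pow_zero, one_mul]
  | succ n ih =>
    have : (-1 : Ω) ^ (n + 1) * w = -((-1) ^ n * w) := by ring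
    rw [this]
    exact hQneg _ ih

/-- **norm argument**: a property of all conjugates of `h`, stable under products and negation,
holds for the constant coefficient of the minimal polynomial of `h`. -/
theorem coeff_zero_minpoly_property {F E Ω : Type*} [Field F] [Field E] [Field Ω]
    [Algebra F E] [Algebra F Ω] [IsAlgClosed Ω]
    (S : Set E) (hS : ∀ s ∈ S, IsIntegral F s) (h : E) (hh : h ∈ IntermediateField.adjoin F S)
    (Q : Ω → Prop) (hQmul : ∀ x y, Q x → Q y → Q (x * y)) (hQneg : ∀ x, Q x → Q (-x))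
    (hκ : ∀ φ : IntermediateField.adjoin F S →ₐ[F] Ω, Q (φ ⟨h, hh⟩)) :
    Q (algebraMap F Ω ((minpoly F h).coeff 0)) := by
  have halg : Algebra.IsAlgebraic F (IntermediateField.adjoin F S) :=
    IntermediateField.isAlgebraic_adjoin hS
  have hint : IsIntegral F h := by
    have h1 : IsIntegral F (⟨h, hh⟩ : IntermediateField.adjoin F S) :=
      (Algebra.IsAlgebraic.isAlgebraic (⟨h, hh⟩ : IntermediateField.adjoin F S)).isIntegral
    exact IntermediateField.isIntegral_iff.mp h1
  set m := minpoly F h with hm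
  have hmonic : (m.map (algebraMap F Ω)).Monic := (minpoly.monic hint).map _
  have hsplit : (m.map (algebraMap F Ω)).Splits := IsAlgClosed.splits _
  have hcoeff : (m.map (algebraMap F Ω)).coeff 0 =
      (-1) ^ (m.map (algebraMap F Ω)).natDegree * (m.map (algebraMap F Ω)).roots.prod :=
    hsplit.coeff_zero_eq_prod_roots_of_monic hmonic
  rw [Polynomial.coeff_map] at hcoeff
  rw [hcoeff]
  refine neg_one_pow_mul_property Q hQneg _ _ ?_
  refine multiset_prod_property Q hQmul _ ?_ ?_
  · intro h0
    have h1 := hsplit.natDegree_eq_card_roots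
    rw [h0, Multiset.card_zero, (minpoly.monic hint).natDegree_map] at h1
    exact (minpoly.natDegree_pos hint).ne' h1
  · intro r hr
    rw [Polynomial.mem_roots hmonic.ne_zero, Polynomial.IsRoot, Polynomial.eval_map,
      ← Polynomial.aeval_def] at hr
    obtain ⟨φ, hφ⟩ := IntermediateField.exists_algHom_adjoin_of_splits_of_aeval
      (F := F) (E := E) (K := Ω) (S := S)
      (fun s hs => ⟨hS s hs, IsAlgClosed.splits _⟩) hh hr
    rw [← hφ]
    exact hκ φ

end Abstract

/-! ### integrality over `k[j]` -/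

section Integrality

variable {k : Type} [Field k]

theorem isIntegral_of_eval_map_evalAt (A : Subalgebra k (LaurentSeries k))
    (P : Polynomial (Polynomial ℤ)) (hP : P.Monic) (x y : LaurentSeries k)
    (hx : IsIntegral A x) (h : (P.map (evalAt x)).eval y = 0) : IsIntegral A y := by
  set S := integralClosure A (LaurentSeries k) with hS
  have hxS : x ∈ S := (mem_integralClosure_iff A (LaurentSeries k)).mpr hx
  set f' : Polynomial ℤ →+* S := evalAtR (⟨x, hxS⟩ : S) with hf'
  have hcomp : (algebraMap S (LaurentSeries k)).comp f' = evalAtR x := by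
    rw [hf']
    exact evalAtR_comp (algebraMap S (LaurentSeries k)) (⟨x, hxS⟩ : S)
  have hyS : IsIntegral S y := by
    refine ⟨P.map f', hP.map f', ?_⟩
    rw [← Polynomial.eval_map, Polynomial.map_map, hcomp]
    exact h
  exact isIntegral_trans (R := A) (A := S) y hyS

theorem isIntegral_jq : IsIntegral (Algebra.adjoin k {jqModC k}) (jqModC k) := by
  have hmem : jqModC k ∈ Algebra.adjoin k {jqModC k} :=
    Algebra.subset_adjoin (Set.mem_singleton _)
  have : jqModC k = algebraMap (Algebra.adjoin k {jqModC k}) (LaurentSeries k)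
      ⟨jqModC k, hmem⟩ := rfl
  rw [this]
  exact isIntegral_algebraMap

theorem isIntegral_jLev_prefix [IsAlgClosed k] (hM : HasHeckeData k) (hΦ : PhiRelStatement k)
    (ps : List ℕ) (hps : ∀ q ∈ ps, q.Prime ∧ (q : k) ≠ 0) :
    ∀ qs : List ℕ, qs <+: ps →
      IsIntegral (Algebra.adjoin k {jqModC k}) (jLev k qs.prod) := by
  intro qs
  induction qs using List.reverseRecOn with
  | nil =>
    intro _
    rw [List.prod_nil, jLev_one]
    exact isIntegral_jq
  | append_singleton rs q ih =>
    intro hpre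
    have hrs : rs <+: ps := (List.prefix_append rs [q]).trans hpre
    have hqmem : q ∈ ps := hpre.subset (by simp)
    obtain ⟨hq, hqk⟩ := hps q hqmem
    have hn : rs.prod ≠ 0 :=
      prod_ne_zero_of_primes (k := k) rs fun r hr => hps r (hrs.subset hr)
    have hprod : (rs ++ [q]).prod = rs.prod * q := by simp
    rw [hprod]
    obtain ⟨hq0, ζ, -, ⟨D⟩⟩ := exists_heckeData hM hq hqk
    exact isIntegral_of_eval_map_evalAt _ D.Φ D.Φ_monic _ _ (ih hrs) (hΦ q ζ D rs.prod hn)

theorem isIntegral_unitLev [IsAlgClosed k] (hM : HasHeckeData k) (hΦ : PhiRelStatement k)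
    (hΨ : PsiRelStatement k)
    (ps : List ℕ) (hps : ∀ q ∈ ps, q.Prime ∧ (q : k) ≠ 0) (p : ℕ) [NeZero p] (hp : p.Prime)
    (hpk : (p : k) ≠ 0) :
    IsIntegral (Algebra.adjoin k {jqModC k}) (unitLev k ps.prod p) := by
  have hN : ps.prod ≠ 0 := prod_ne_zero_of_primes (k := k) ps hps
  obtain ⟨ζ, ⟨D⟩⟩ : ∃ ζ : kˣ, Nonempty (HeckeDataOver p k ζ) := by
    obtain ⟨_, ζ, hζ, hD⟩ := exists_heckeData hM hp hpk
    exact ⟨ζ, hD⟩
  exact isIntegral_of_eval_map_evalAt _ D.Ψ D.Ψ_monic _ _
    (isIntegral_jLev_prefix hM hΦ ps hps ps (List.prefix_refl ps)) (hΨ p ζ D ps.prod hN)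

theorem adjoin_le_baseField :
    Algebra.adjoin k {jqModC k} ≤ (baseField k).toSubalgebra := by
  rw [Algebra.adjoin_le_iff]
  intro x hx
  exact IntermediateField.subset_adjoin k _ hx

/-- integrality over `k[j]` implies integrality over `k(j)` -/
theorem isIntegral_baseField_of_isIntegral {x : LaurentSeries k}
    (hx : IsIntegral (Algebra.adjoin k {jqModC k}) x) : IsIntegral (baseField k) x := by
  refine IsIntegral.map_of_comp_eq
    ((Subalgebra.inclusion (adjoin_le_baseField (k := k))).toRingHom :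
      Algebra.adjoin k {jqModC k} →+* (baseField k))
    (RingHom.id (LaurentSeries k)) ?_ hx
  ext a
  rfl

end Integrality

/-! ### membership of polynomial expressions -/

section Membership

variable {k : Type} [Field k]

theorem eval_map_evalAt_mem (G : IntermediateField k (LaurentSeries k))
    (P : Polynomial (Polynomial ℤ)) (x y : LaurentSeries k) (hx : x ∈ G) (hy : y ∈ G) :
    (P.map (evalAt x)).eval y ∈ G := by
  have h := map_eval_map_evalAtR (algebraMap G (LaurentSeries k)) P ⟨x, hx⟩ ⟨y, hy⟩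
  have h2 : (P.map (evalAt x)).eval y =
      algebraMap G (LaurentSeries k) ((P.map (evalAtR (⟨x, hx⟩ : G))).eval ⟨y, hy⟩) := by
    rw [h]
    rfl
  rw [h2]
  exact SetLike.coe_mem _

/-- step (a): the unit lies in the chain field as soon as `j(q^{Np})` does -/
theorem unitLev_mem_chainField [IsAlgClosed k] (hM : HasHeckeData k) (hL : LRelStatement k)
    (hd : PhiDerivStatement k)
    (ps : List ℕ) (hps : ∀ q ∈ ps, q.Prime ∧ (q : k) ≠ 0) (p : ℕ) [NeZero p] (hp : p.Prime)
    (hpk : (p : k) ≠ 0) (hy : jLev k (ps.prod * p) ∈ chainField k ps) :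
    unitLev k ps.prod p ∈ chainField k ps := by
  have hN : ps.prod ≠ 0 := prod_ne_zero_of_primes (k := k) ps hps
  obtain ⟨ζ, ⟨D⟩⟩ : ∃ ζ : kˣ, Nonempty (HeckeDataOver p k ζ) := by
    obtain ⟨_, ζ, hζ, hD⟩ := exists_heckeData hM hp hpk
    exact ⟨ζ, hD⟩
  have hxN : jLev k ps.prod ∈ chainField k ps := jLev_mem_chainField k (List.prefix_refl ps)
  have h1 := hL p ζ D ps.prod hN
  have h2 := hd p ζ D hp ps.prod hN
  rw [Polynomial.derivative_map] at h1 h2
  have hl : (D.L.map (evalAt (jLev k ps.prod))).eval (jLev k (ps.prod * p)) ∈ chainField k ps :=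
    eval_map_evalAt_mem _ _ _ _ hxN hy
  have hdm : ((Polynomial.derivative D.Φ).map (evalAt (jLev k ps.prod))).eval
      (jLev k (ps.prod * p)) ∈ chainField k ps :=
    eval_map_evalAt_mem _ _ _ _ hxN hy
  have h3 : unitLev k ps.prod p =
      (D.L.map (evalAt (jLev k ps.prod))).eval (jLev k (ps.prod * p)) *
        (((Polynomial.derivative D.Φ).map (evalAt (jLev k ps.prod))).eval
          (jLev k (ps.prod * p)))⁻¹ := by
    rw [h1, mul_assoc, mul_inv_cancel₀ h2, mul_one]
  rw [h3]
  exact mul_mem hl (inv_mem hdm)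

end Membership

/-! ### the unit norm lemma -/

section Main

variable {k : Type} [Field k]

theorem posOrd_neg {f : LaurentSeries k} (hf : PosOrd f) : PosOrd (-f) := by
  intro n hn
  rw [HahnSeries.coeff_neg, hf n hn, neg_zero]

/-- **IG-E3, hypothesis-parametric form.** -/
theorem jLev_not_mem_chainField_of (k : Type) [Field k] [IsAlgClosed k]
    (hM : HasHeckeData k)
    (hρ : RhoStatement k) (hΦ : PhiRelStatement k) (hΨ : PsiRelStatement k)
    (hL : LRelStatement k) (hd : PhiDerivStatement k)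
    (hpoly : PolyOfIntegralStatement k) (hcoeff : CoeffAevalStatement k)
    (ps : List ℕ) (hps : ∀ q ∈ ps, q.Prime ∧ (q : k) ≠ 0) (p : ℕ) (hp : p.Prime)
    (hpk : (p : k) ≠ 0) (hpn : ¬ p ∣ ps.prod) :
    jLev k (ps.prod * p) ∉ chainField k ps := by
  intro hyG
  have hN : ps.prod ≠ 0 := prod_ne_zero_of_primes (k := k) ps hps
  haveI : NeZero p := ⟨hp.ne_zero⟩
  haveI : NeZero (ps.prod * p) := ⟨mul_ne_zero hN hp.ne_zero⟩
  obtain ⟨ρ, hρ'⟩ := hρ (ps.prod * p)
  have hy : jLev k (ps.prod * p) ∈ chainExt k ps := chainField_le_chainExt k ps hyG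
  have hhG : unitLev k ps.prod p ∈ chainField k ps :=
    unitLev_mem_chainField hM hL hd ps hps p hp hpk hyG
  have hh : unitLev k ps.prod p ∈ chainExt k ps := chainField_le_chainExt k ps hhG
  have hhint : IsIntegral (Algebra.adjoin k {jqModC k}) (unitLev k ps.prod p) :=
    isIntegral_unitLev hM hΦ hΨ ps hps p hp hpk
  -- the property of the conjugates
  set Ω := AlgebraicClosure (LaurentSeries k) with hΩ
  set Q : Ω → Prop := fun w =>
    (∃ z : LaurentSeries k, PosOrd z ∧ z ≠ 0 ∧ w = ρ z) ∧
      IsIntegral (Algebra.adjoin k {jqModC k}) w with hQ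
  have hQmul : ∀ x y, Q x → Q y → Q (x * y) := by
    rintro x y ⟨⟨z1, hz1, hz1', rfl⟩, hx⟩ ⟨⟨z2, hz2, hz2', rfl⟩, hy⟩
    exact ⟨⟨z1 * z2, posOrd_mul hz1 hz2, mul_ne_zero hz1' hz2', (map_mul ρ z1 z2).symm⟩,
      hx.mul hy⟩
  have hQneg : ∀ x, Q x → Q (-x) := by
    rintro x ⟨⟨z1, hz1, hz1', rfl⟩, hx⟩
    exact ⟨⟨-z1, posOrd_neg hz1, neg_ne_zero.mpr hz1', (map_neg ρ z1).symm⟩, hx.neg⟩
  have hS : ∀ s ∈ chainSet k ps, IsIntegral (baseField k) s := by
    rintro s ⟨qs, hqs, rfl⟩
    exact isIntegral_baseField_of_isIntegral (isIntegral_jLev_prefix hM hΦ ps hps qs hqs)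
  have hκ : ∀ φ : chainExt k ps →ₐ[baseField k] Ω, Q (φ ⟨unitLev k ps.prod p, hh⟩) := by
    intro φ
    refine ⟨kappa_unit hM hΦ hL hd ps hps p hp hpk hpn ρ hρ' hy hh φ, ?_⟩
    -- integrality of the conjugate
    set f₁ : Algebra.adjoin k {jqModC k} →+* chainExt k ps :=
      (algebraMap (baseField k) (chainExt k ps)).comp
        ((Subalgebra.inclusion (adjoin_le_baseField (k := k))).toRingHom) with hf₁
    have h1 : ((algebraMap (chainExt k ps) (LaurentSeries k)).comp f₁).IsIntegralElem
        (algebraMap (chainExt k ps) (LaurentSeries k) ⟨unitLev k ps.prod p, hh⟩) := by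
      have : (algebraMap (chainExt k ps) (LaurentSeries k)).comp f₁ =
          algebraMap (Algebra.adjoin k {jqModC k}) (LaurentSeries k) := by
        ext a
        rfl
      rw [this]
      exact hhint
    have h2 := isIntegralElem_transport f₁ (algebraMap (chainExt k ps) (LaurentSeries k))
      (φ : chainExt k ps →+* Ω) (algebraMap (chainExt k ps) (LaurentSeries k)).injective _ h1
    have h3 : (φ : chainExt k ps →+* Ω).comp f₁ =
        algebraMap (Algebra.adjoin k {jqModC k}) Ω := by
      ext a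
      have h4 : (φ : chainExt k ps →+* Ω) (f₁ a) =
          φ (algebraMap (baseField k) (chainExt k ps)
            ⟨(a : LaurentSeries k), adjoin_le_baseField a.2⟩) := rfl
      rw [RingHom.comp_apply, h4, φ.commutes,
        IsScalarTower.algebraMap_apply (Algebra.adjoin k {jqModC k}) (LaurentSeries k) Ω,
        IsScalarTower.algebraMap_apply (baseField k) (LaurentSeries k) Ω]
      rfl
    rw [h3] at h2
    exact h2
  have hmain := coeff_zero_minpoly_property (F := baseField k) (E := LaurentSeries k) (Ω := Ω)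
    (chainSet k ps) hS (unitLev k ps.prod p) hh Q hQmul hQneg hκ
  obtain ⟨⟨z, hz, hz0, hzeq⟩, hcint⟩ := hmain
  set c0 : baseField k := (minpoly (baseField k) (unitLev k ps.prod p)).coeff 0 with hc0
  have hc0eq : algebraMap (baseField k) Ω c0 =
      ρ (qExpand k (ps.prod * p) (c0 : LaurentSeries k)) := by
    rw [IsScalarTower.algebraMap_apply (baseField k) (LaurentSeries k) Ω, ← hρ']
    rfl
  have hzq : qExpand k (ps.prod * p) (c0 : LaurentSeries k) = z := by
    apply ρ.injective
    rw [← hc0eq, hzeq]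
  have hc0pos : PosOrd (c0 : LaurentSeries k) := by
    apply posOrd_of_qExpand (ps.prod * p)
    rw [hzq]
    exact hz
  have hc0ne : (c0 : LaurentSeries k) ≠ 0 := by
    intro h0
    apply hz0
    rw [← hzq, h0, map_zero]
  have hc0int : IsIntegral (Algebra.adjoin k {jqModC k}) (c0 : LaurentSeries k) := by
    have h5 : algebraMap (baseField k) Ω c0 =
        algebraMap (LaurentSeries k) Ω (c0 : LaurentSeries k) := by
      rw [IsScalarTower.algebraMap_apply (baseField k) (LaurentSeries k) Ω]
      rfl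
    rw [h5] at hcint
    exact (isIntegral_algebraMap_iff (algebraMap (LaurentSeries k) Ω).injective).mp hcint
  obtain ⟨P, hP⟩ := hpoly (c0 : LaurentSeries k) c0.2 hc0int
  have hP0 : P ≠ 0 := by
    rintro rfl
    exact hc0ne (by rw [hP, map_zero])
  obtain ⟨n, hn, hne⟩ := hcoeff P hP0
  rw [← hP] at hne
  exact hne (hc0pos n hn)

end Main

end Fermat.Agent.H9
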