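import Mathlib
import Fermat.Prelude.Def_ModularCurve_X0ModL
import Fermat.Agent.H27.Igusa.Chain
import Fermat.Agent.H2.IgusaLevelRel
import Fermat.Agent.H16.IgusaRho
import Fermat.Agent.H74.IgusaPolyJ
import Fermat.Agent.H9.Igusa.UnitNorm

/-!
# P-IGUSA, IG-E3: the unit norm lemma

`jLev_not_mem_chainField`: for primes `ps` (nonzero in `k`), `N = ps.prod`, and a prime `p ∤ N`,
`p ≠ 0` in `k`, the series `j(q^{Np})` does not lie in the chain field
`k(j(q^{N_0}), …, j(q^{N_s}))`.
-/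

set_option autoImplicit false

noncomputable section

open HahnSeries ModularCurve Polynomial

namespace Fermat.Agent.H9

open Fermat.Agent.H27

theorem jLev_not_mem_chainField (k : Type) [Field k] [IsAlgClosed k] (hM : HasHeckeData k)
    (ps : List ℕ) (hps : ∀ q ∈ ps, q.Prime ∧ (q : k) ≠ 0) (p : ℕ) (hp : p.Prime)
    (hpk : (p : k) ≠ 0) (hpn : ¬ p ∣ ps.prod) :
    jLev k (ps.prod * p) ∉ chainField k ps :=
  jLev_not_mem_chainField_of k hM
    (fun M _ => Fermat.Agent.H16.exists_rho k M)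
    (fun q _ ζ D n hn => Fermat.Agent.H2.Phi_rel k q ζ D n hn)
    (fun q _ ζ D n hn => Fermat.Agent.H2.Psi_rel k q ζ D n hn)
    (fun q _ ζ D n hn => Fermat.Agent.H2.L_rel k q ζ D n hn)
    (fun q _ ζ D hq n hn => Fermat.Agent.H2.Phi_deriv_ne_zero k q ζ D hq n hn)
    (fun x hx hint => Fermat.Agent.H74.exists_poly_of_integral k x hx hint)
    (fun P hP => Fermat.Agent.H74.exists_coeff_aeval_jq_ne_zero k P hP)
    ps hps p hp hpk hpn

end Fermat.Agent.H9
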